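import Fermat.Agent.S19.H15.OrdBasic

/-!
# Cell A3 (S19) — node ORD, part 3 (helper15): finite generation

`exists_bound`: for a finitely generated, separating `ℤ_(ℓ)`-subalgebra `H₀` of equivariant
functions on a finite `Gal`-set `M` there is `d ≠ 0` in `ℤ_(ℓ)` with `d • u ∈ H₀` for EVERY
equivariant function `u` with integral values (Gram matrix of the pairing `Σ_m f(m) g(m)`).

`ordAlg_fg`: the algebra generated by the generators of an order datum is a finitely generated
`ℤ_(ℓ)`-module.
-/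

set_option autoImplicit false
set_option linter.style.haveILetI false

noncomputable section

namespace Fermat.Agent.S19.H15

open Fermat.Agent.S19
open scoped Matrix

variable {ℓ : ℕ} [Fact ℓ.Prime]

omit [Fact ℓ.Prime] in
/-- A function on a finite set with integral values is integral. -/
theorem isIntegral_of_forall_apply {X : Type} [Finite X] (f : X → Qb)
    (hf : ∀ x, IsIntegral (Rl ℓ) (f x)) : IsIntegral (Rl ℓ) f := by
  classical
  haveI := Fintype.ofFinite X
  choose p hp hp0 using hf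
  refine ⟨∏ x, p x, Polynomial.monic_prod_of_monic _ _ fun x _ => hp x, ?_⟩
  funext y
  have h1 : (Polynomial.eval₂ (algebraMap (Rl ℓ) (X → Qb)) f (∏ x, p x)) y =
      Polynomial.eval₂ (algebraMap (Rl ℓ) Qb) (f y) (∏ x, p x) := by
    have := Polynomial.aeval_algHom_apply (Pi.evalAlgHom (Rl ℓ) (fun _ : X => Qb) y) f (∏ x, p x)
    simp only [Polynomial.aeval_def, Pi.evalAlgHom_apply] at this
    exact this.symm
  rw [h1, Polynomial.eval₂_finsetProd]
  exact Finset.prod_eq_zero (Finset.mem_univ y) (hp0 y)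

section Bound

variable {M : Type} {act : GalQ → M → M}

/-- the pairing -/
def pair [Fintype M] (f g : M → Qb) : Qb := ∑ m, f m * g m

theorem pair_fixed [Fintype M] (hone : ∀ m, act 1 m = m)
    (hact : ∀ σ τ m, act σ (act τ m) = act (σ * τ) m)
    {f g : M → Qb} (hf : H19.IsEquivariant act f) (hg : H19.IsEquivariant act g) (σ : GalQ) :
    σ (pair f g) = pair f g := by
  unfold pair
  rw [map_sum]
  let e : M ≃ M :=
    { toFun := act σ
      invFun := act σ⁻¹
      left_inv := fun m => by rw [hact, inv_mul_cancel, hone]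
      right_inv := fun m => by rw [hact, mul_inv_cancel, hone] }
  rw [← Equiv.sum_comp e (fun m => f m * g m)]
  refine Finset.sum_congr rfl fun m _ => ?_
  show σ (f m * g m) = f (act σ m) * g (act σ m)
  rw [map_mul, hf σ m, hg σ m]

omit [Fact ℓ.Prime] in
theorem pair_integral [Fintype M] {f g : M → Qb} (hf : ∀ m, IsIntegral (Rl ℓ) (f m))
    (hg : ∀ m, IsIntegral (Rl ℓ) (g m)) : IsIntegral (Rl ℓ) (pair f g) :=
  IsIntegral.sum _ fun m _ => (hf m).mul (hg m)

theorem exists_Rl_pair [Fintype M] (hone : ∀ m, act 1 m = m)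
    (hact : ∀ σ τ m, act σ (act τ m) = act (σ * τ) m)
    {f g : M → Qb} (hf : H19.IsEquivariant act f) (hg : H19.IsEquivariant act g)
    (hfi : ∀ m, IsIntegral (Rl ℓ) (f m)) (hgi : ∀ m, IsIntegral (Rl ℓ) (g m)) :
    ∃ r : Rl ℓ, algebraMap (Rl ℓ) Qb r = pair f g := by
  haveI : IsPrincipalIdealRing ↥(GaloisRep.ratLocalizedAt ℓ) := inferInstance
  exact H19.mem_range_of_fixed_of_isIntegral (Rl ℓ)
    (fun q hq => H19.mem_of_isIntegral_of_pid (Rl ℓ) q hq) _
    (fun σ => pair_fixed hone hact hf hg σ) (pair_integral hfi hgi)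

omit [Fact ℓ.Prime] in
/-- The `Q̄`-span of a separating subalgebra is everything. -/
theorem span_Qb_eq_top [Finite M] (H₀ : Subalgebra (Rl ℓ) (M → Qb))
    (hsep : ∀ m m' : M, m ≠ m' → ∃ f ∈ H₀, f m ≠ f m') :
    Submodule.span Qb (H₀ : Set (M → Qb)) = ⊤ := by
  have h1 : Algebra.adjoin Qb (H₀ : Set (M → Qb)) = ⊤ := by
    apply H19.subalgebra_eq_top_of_separates
    intro m m' hne
    obtain ⟨f, hf, hfm⟩ := hsep m m' hne
    exact ⟨f, Algebra.subset_adjoin hf, hfm⟩
  have h2 := Algebra.adjoin_eq_span Qb (H₀ : Set (M → Qb))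
  have h3 : Submonoid.closure (H₀ : Set (M → Qb)) = H₀.toSubmonoid :=
    Submonoid.closure_eq H₀.toSubmonoid
  rw [h3, h1] at h2
  rw [eq_top_iff]
  intro x _
  have : x ∈ Subalgebra.toSubmodule (⊤ : Subalgebra Qb (M → Qb)) := by simp
  rw [h2] at this
  exact this

/-- **Bounded denominators.** -/
theorem exists_bound [Finite M] (hone : ∀ m, act 1 m = m)
    (hact : ∀ σ τ m, act σ (act τ m) = act (σ * τ) m)
    (H₀ : Subalgebra (Rl ℓ) (M → Qb)) (hequiv : ∀ f ∈ H₀, H19.IsEquivariant act f)
    (hfg : (Subalgebra.toSubmodule H₀).FG)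
    (hsep : ∀ m m' : M, m ≠ m' → ∃ f ∈ H₀, f m ≠ f m') :
    ∃ d : Rl ℓ, d ≠ 0 ∧ ∀ u : M → Qb, H19.IsEquivariant act u →
      (∀ m, IsIntegral (Rl ℓ) (u m)) → d • u ∈ H₀ := by
  classical
  haveI := Fintype.ofFinite M
  haveI : IsPrincipalIdealRing ↥(GaloisRep.ratLocalizedAt ℓ) := inferInstance
  obtain ⟨ι, hι, b, hb⟩ := H19.good_of_equivariant (Rl ℓ) hone hact H₀ hequiv hfg
  haveI := Fintype.ofFinite ι
  -- the basis functions
  set e : ι → M → Qb := fun i => ((b i : H₀) : M → Qb) with he
  have hemem : ∀ i, e i ∈ H₀ := fun i => (b i).2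
  have heq : ∀ i, H19.IsEquivariant act (e i) := fun i => hequiv _ (hemem i)
  have hint₀ : ∀ f ∈ H₀, ∀ m, IsIntegral (Rl ℓ) (f m) := by
    intro f hf m
    haveI : Module.Finite (Rl ℓ) H₀ := Module.Finite.iff_fg.mpr hfg
    have h1 : IsIntegral (Rl ℓ) (⟨f, hf⟩ : H₀) := Algebra.IsIntegral.isIntegral _
    exact h1.map (H19.IsOrder.evPt H₀ m)
  have hei : ∀ i m, IsIntegral (Rl ℓ) (e i m) := fun i m => hint₀ _ (hemem i) m
  have hli : LinearIndependent Qb e := hb
  -- every function is a `Q̄`-combination of the `e i`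
  have hspan : ∀ u : M → Qb, ∃ c : ι → Qb, u = ∑ i, c i • e i := by
    have h1 : Submodule.span Qb (Set.range e) = ⊤ := by
      rw [eq_top_iff, ← span_Qb_eq_top H₀ hsep]
      refine Submodule.span_le.mpr ?_
      intro f hf
      have h2 := congrArg (fun g : H₀ => (g : M → Qb)) (b.sum_repr ⟨f, hf⟩)
      simp only at h2
      rw [SetLike.mem_coe, ← h2, AddSubmonoidClass.coe_finsetSum]
      refine Submodule.sum_mem _ fun i _ => ?_
      have h3 : (((b.repr ⟨f, hf⟩ i) • b i : H₀) : M → Qb) =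
          (algebraMap (Rl ℓ) Qb (b.repr ⟨f, hf⟩ i)) • e i := by
        rw [algebraMap_smul]
        rfl
      rw [h3]
      exact Submodule.smul_mem _ _ (Submodule.subset_span ⟨i, rfl⟩)
    intro u
    have hu : u ∈ Submodule.span Qb (Set.range e) := by rw [h1]; trivial
    obtain ⟨c, hc⟩ := (Submodule.mem_span_range_iff_exists_fun Qb).mp hu
    exact ⟨c, hc.symm⟩
  -- Gram matrix
  choose g hg using fun i j => exists_Rl_pair (ℓ := ℓ) hone hact (heq i) (heq j) (hei i) (hei j)
  let G : Matrix ι ι (Rl ℓ) := Matrix.of g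
  let GQ : Matrix ι ι Qb := G.map (algebraMap (Rl ℓ) Qb)
  have hGQ : ∀ i j, GQ i j = pair (e i) (e j) := fun i j => hg i j
  have hpair_sum : ∀ (c : ι → Qb) (j : ι), pair (∑ i, c i • e i) (e j) = (c ᵥ* GQ) j := by
    intro c j
    simp only [pair, Matrix.vecMul, dotProduct, hGQ, Finset.sum_apply, Pi.smul_apply,
      smul_eq_mul, Finset.sum_mul, Finset.mul_sum]
    rw [Finset.sum_comm]
    refine Finset.sum_congr rfl fun i _ => Finset.sum_congr rfl fun m _ => by ring
  have hdetQ : GQ.det = algebraMap (Rl ℓ) Qb G.det := (RingHom.map_det _ _).symm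
  have hinj : Function.Injective (algebraMap (Rl ℓ) Qb) := H19.algebraMap_subring_injective (Rl ℓ)
  -- the determinant is nonzero
  have hdet : G.det ≠ 0 := by
    intro h0
    have h1 : GQ.det = 0 := by rw [hdetQ, h0, map_zero]
    obtain ⟨x, hx0, hx⟩ := Matrix.exists_vecMul_eq_zero_iff.mpr h1
    -- `w = Σ x i • e i` is orthogonal to everything
    set w : M → Qb := ∑ i, x i • e i with hw
    have hwe : ∀ j, pair w (e j) = 0 := by
      intro j
      rw [hw, hpair_sum, hx]
      rfl
    have hwall : ∀ f : M → Qb, pair w f = 0 := by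
      intro f
      obtain ⟨c, rfl⟩ := hspan f
      have : pair w (∑ i, c i • e i) = ∑ i, c i * pair w (e i) := by
        simp only [pair, Finset.sum_apply, Pi.smul_apply, smul_eq_mul, Finset.mul_sum]
        rw [Finset.sum_comm]
        refine Finset.sum_congr rfl fun i _ => Finset.sum_congr rfl fun m _ => by ring
      rw [this]
      exact Finset.sum_eq_zero fun i _ => by rw [hwe i, mul_zero]
    have hw0 : w = 0 := by
      funext m
      have := hwall (Pi.single m 1)
      simp only [pair, Pi.single_apply, mul_ite, mul_one, mul_zero, Finset.sum_ite_eq',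
        Finset.mem_univ, if_true] at this
      exact this
    have hx' := (Fintype.linearIndependent_iff.mp hli) x (hw ▸ hw0)
    exact hx0 (funext hx')
  refine ⟨G.det, hdet, fun u hu hui => ?_⟩
  obtain ⟨c, rfl⟩ := hspan u
  -- the pairings with the basis are in `R`
  choose r hr using fun j =>
    exists_Rl_pair (ℓ := ℓ) hone hact hu (heq j) hui (hei j)
  have hv : c ᵥ* GQ = fun j => algebraMap (Rl ℓ) Qb (r j) := by
    funext j
    rw [← hpair_sum, hr j]
  -- multiply by the adjugate
  have hadj : (GQ.det) • c = (fun j => algebraMap (Rl ℓ) Qb (r j)) ᵥ* GQ.adjugate := by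
    rw [← hv, Matrix.vecMul_vecMul, Matrix.mul_adjugate, Matrix.vecMul_smul, Matrix.vecMul_one]
  have hadj' : GQ.adjugate = G.adjugate.map (algebraMap (Rl ℓ) Qb) :=
    (RingHom.map_adjugate _ _).symm
  have hci : ∀ i, algebraMap (Rl ℓ) Qb G.det * c i =
      algebraMap (Rl ℓ) Qb (∑ j, r j * G.adjugate j i) := by
    intro i
    have := congrFun hadj i
    rw [Pi.smul_apply, smul_eq_mul, hdetQ] at this
    rw [this, hadj', map_sum]
    simp only [Matrix.vecMul, dotProduct, Matrix.map_apply, map_mul]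
  have hfinal : G.det • (∑ i, c i • e i) = ∑ i, (∑ j, r j * G.adjugate j i) • e i := by
    rw [Finset.smul_sum]
    refine Finset.sum_congr rfl fun i _ => ?_
    funext m
    simp only [Pi.smul_apply, smul_eq_mul]
    rw [Algebra.smul_def, Algebra.smul_def, ← mul_assoc, hci i]
  rw [hfinal]
  exact Subalgebra.sum_mem _ fun i _ => Subalgebra.smul_mem _ (hemem i) _

end Bound

end Fermat.Agent.S19.H15

end
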