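import Fermat.Agent.S19.H15.OrdDescent
import Fermat.Agent.S19.H15.OrdFG

/-!
# Cell A3 (S19) — node ORD (helper15): `ordStatement : OrdStatement`

An `OrderDatum` on a finite module gives a finite flat commutative cocommutative Hopf algebra over
`ℤ_(ℓ)` with the prescribed points.  The Hopf algebra itself is helper19's
`H19.exists_hopf_of_equivariant_order`; this file supplies its hypotheses for
`H := Algebra.adjoin ℤ_(ℓ) gens`:

* `ordAlg_fg`    : `H` is a finitely generated module (bounded denominators, `exists_bound`);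
* `ordAlg_comul` : `f ∘ add` lies in the image of `H ⊗ H` (descent `Z̄_(ℓ) → ℤ_(ℓ)` of `add_mem`).
-/

set_option autoImplicit false
set_option linter.style.haveILetI false

noncomputable section

namespace Fermat.Agent.S19.H15

open Fermat.Agent.S19
open scoped TensorProduct

variable {ℓ : ℕ} [Fact ℓ.Prime] {M : Type} [AddCommGroup M] [Finite M] {act : GalQ → M → M}

/-- The algebra of an order datum is a finitely generated module. -/
theorem ordAlg_fg (D : OrderDatum ℓ M act) : (Subalgebra.toSubmodule (ordAlg D)).FG := by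
  classical
  haveI : IsPrincipalIdealRing ↥(GaloisRep.ratLocalizedAt ℓ) := inferInstance
  haveI : IsNoetherianRing ↥(Rl ℓ) := inferInstance
  -- a finite separating set of generators
  have hex : ∀ p : {p : M × M // p.1 ≠ p.2}, ∃ f ∈ D.gens, f p.1.1 ≠ f p.1.2 := by
    intro p
    by_contra hcon
    push Not at hcon
    exact p.2 (D.separates _ _ hcon)
  choose F hF hFne using hex
  set H₀ : Subalgebra (Rl ℓ) (M → Qb) := Algebra.adjoin (Rl ℓ) (Set.range F) with hH₀
  have hle : H₀ ≤ ordAlg D := Algebra.adjoin_mono (by rintro _ ⟨p, rfl⟩; exact hF p)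
  have hfg₀ : (Subalgebra.toSubmodule H₀).FG :=
    fg_adjoin_of_finite (Set.finite_range F) (by
      rintro _ ⟨p, rfl⟩
      exact isIntegral_of_forall_apply _ (D.integral _ (hF p)))
  have hsep₀ : ∀ m m' : M, m ≠ m' → ∃ f ∈ H₀, f m ≠ f m' := fun m m' hne =>
    ⟨F ⟨(m, m'), hne⟩, Algebra.subset_adjoin ⟨_, rfl⟩, hFne ⟨(m, m'), hne⟩⟩
  obtain ⟨d, hd0, hd⟩ := exists_bound (act_one D) (act_mul D) H₀
    (fun f hf => ordAlg_equivariant D f (hle hf)) hfg₀ hsep₀
  let φ : (M → Qb) →ₗ[Rl ℓ] (M → Qb) := LinearMap.lsmul (Rl ℓ) (M → Qb) d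
  have hφ : Function.Injective φ := by
    intro u v huv
    funext m
    have h1 := congrFun huv m
    simp only [φ, LinearMap.lsmul_apply, Pi.smul_apply, Algebra.smul_def] at h1
    have h2 : algebraMap (Rl ℓ) Qb d ≠ 0 := fun h =>
      hd0 (H19.algebraMap_subring_injective (Rl ℓ) (h.trans (map_zero _).symm))
    exact mul_left_cancel₀ h2 h1
  have hmap : (Subalgebra.toSubmodule (ordAlg D)).map φ ≤ Subalgebra.toSubmodule H₀ := by
    rintro _ ⟨u, hu, rfl⟩
    exact hd u (ordAlg_equivariant D u hu) (ordAlg_integral D u hu)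
  exact Submodule.fg_of_fg_map_injective φ hφ (Submodule.FG.of_le hfg₀ hmap)

/-- the diagonal action on pairs -/
def act₂ (act : GalQ → M → M) (σ : GalQ) (p : M × M) : M × M := (act σ p.1, act σ p.2)

omit [Fact ℓ.Prime] [Finite M] in
theorem range_prodMap_equivariant (D : OrderDatum ℓ M act) :
    ∀ F ∈ (H19.prodMap (ordAlg D).val (ordAlg D).val).range,
      H19.IsEquivariant (act₂ act) F := by
  rintro _ ⟨t, rfl⟩
  induction t using TensorProduct.induction_on with
  | zero =>
    intro σ p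
    simp
  | tmul a b =>
    intro σ p
    show (H19.prodMap (ordAlg D).val (ordAlg D).val) (a ⊗ₜ[Rl ℓ] b) (act₂ act σ p) =
      σ ((H19.prodMap (ordAlg D).val (ordAlg D).val) (a ⊗ₜ[Rl ℓ] b) p)
    rw [H19.prodMap_tmul, H19.prodMap_tmul]
    show (a : M → Qb) (act σ p.1) * (b : M → Qb) (act σ p.2) = _
    rw [ordAlg_equivariant D _ a.2 σ, ordAlg_equivariant D _ b.2 σ, map_mul]
    rfl
  | add x y hx hy =>
    intro σ p
    rw [map_add, Pi.add_apply, Pi.add_apply, hx σ p, hy σ p, map_add]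

theorem range_prodMap_fg (D : OrderDatum ℓ M act) :
    (Subalgebra.toSubmodule (H19.prodMap (ordAlg D).val (ordAlg D).val).range).FG := by
  haveI : Module.Finite (Rl ℓ) (ordAlg D) := Module.Finite.iff_fg.mpr (ordAlg_fg D)
  have h1 : (⊤ : Submodule (Rl ℓ) ((ordAlg D) ⊗[Rl ℓ] (ordAlg D))).FG := Module.Finite.fg_top
  have h2 := h1.map (H19.prodMap (ordAlg D).val (ordAlg D).val).toLinearMap
  convert h2 using 1
  ext x
  simp [AlgHom.mem_range]

omit [Fact ℓ.Prime] [Finite M] in
theorem coordFunctions_subset_range (D : OrderDatum ℓ M act) :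
    coordFunctions D.gens ⊆
      ((H19.prodMap (ordAlg D).val (ordAlg D).val).range : Set (M × M → Qb)) := by
  rintro _ (⟨h, hh, rfl⟩ | ⟨h, hh, rfl⟩)
  · refine ⟨(⟨h, gens_le_ordAlg D hh⟩ : ordAlg D) ⊗ₜ[Rl ℓ] 1, ?_⟩
    funext p
    show (H19.prodMap (ordAlg D).val (ordAlg D).val)
      ((⟨h, gens_le_ordAlg D hh⟩ : ordAlg D) ⊗ₜ[Rl ℓ] 1) p = h p.1
    rw [H19.prodMap_tmul]
    simp
  · refine ⟨(1 : ordAlg D) ⊗ₜ[Rl ℓ] (⟨h, gens_le_ordAlg D hh⟩ : ordAlg D), ?_⟩
    funext p
    show (H19.prodMap (ordAlg D).val (ordAlg D).val)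
      ((1 : ordAlg D) ⊗ₜ[Rl ℓ] (⟨h, gens_le_ordAlg D hh⟩ : ordAlg D)) p = h p.2
    rw [H19.prodMap_tmul]
    simp

/-- `f ∘ add` lies in the image of `H ⊗ H`, for the generators. -/
theorem gens_comul (D : OrderDatum ℓ M act) (f : M → Qb) (hf : f ∈ D.gens) :
    (fun p : M × M => f (p.1 + p.2)) ∈ (H19.prodMap (ordAlg D).val (ordAlg D).val).range := by
  set Λ₂ := (H19.prodMap (ordAlg D).val (ordAlg D).val).range with hΛ₂
  refine mem_of_mem_span_of_equivariant (act := act₂ act)
    (fun p => Prod.ext (act_one D p.1) (act_one D p.2))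
    (fun σ τ p => Prod.ext (act_mul D σ τ p.1) (act_mul D σ τ p.2))
    Λ₂ (range_prodMap_equivariant D) (range_prodMap_fg D) ?_ ?_
  · -- membership in the `Zb`-span
    have h1 : Algebra.adjoin (Zb ℓ) (coordFunctions D.gens) ≤
        Algebra.adjoin (Zb ℓ) (Λ₂ : Set (M × M → Qb)) :=
      Algebra.adjoin_mono (coordFunctions_subset_range D)
    have h2 := Algebra.adjoin_eq_span (Zb ℓ) (Λ₂ : Set (M × M → Qb))
    have h3 : Submonoid.closure (Λ₂ : Set (M × M → Qb)) = Λ₂.toSubmonoid :=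
      Submonoid.closure_eq Λ₂.toSubmonoid
    rw [h3] at h2
    have h4 : (fun p : M × M => f (p.1 + p.2)) ∈
        Subalgebra.toSubmodule (Algebra.adjoin (Zb ℓ) (Λ₂ : Set (M × M → Qb))) :=
      h1 (D.add_mem f hf)
    rw [h2] at h4
    exact h4
  · intro σ p
    show f (act σ p.1 + act σ p.2) = σ (f (p.1 + p.2))
    rw [← D.act_add, D.equivariant f hf]

/-- `f ∘ add` lies in the image of `H ⊗ H`, for all `f ∈ H`. -/
theorem ordAlg_comul (D : OrderDatum ℓ M act) :
    ∀ f ∈ ordAlg D, (fun p : M × M => f (p.1 + p.2)) ∈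
      (H19.prodMap (ordAlg D).val (ordAlg D).val).range := by
  have h : ordAlg D ≤ (H19.prodMap (ordAlg D).val (ordAlg D).val).range.comap
      (H19.pullback (Rl ℓ) Qb (fun p : M × M => p.1 + p.2)) :=
    Algebra.adjoin_le fun f hf => gens_comul D f hf
  exact fun f hf => h hf

/-- **Node ORD.** -/
theorem ordStatement : OrdStatement := by
  intro ℓ _ M _ _ act hD
  obtain ⟨D⟩ := hD
  haveI : IsPrincipalIdealRing ↥(GaloisRep.ratLocalizedAt ℓ) := inferInstance
  exact H19.exists_hopf_of_equivariant_order (Rl ℓ) isIntegrallyClosed_Rl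
    (act_one D) (act_mul D) (act_zero D) (ordAlg D) (ordAlg_equivariant D) (ordAlg_fg D)
    (ordAlg_separates D) (ordAlg_comul D)

end Fermat.Agent.S19.H15

end
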