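import Fermat.Agent.S19.Defs
import Fermat.Agent.S19.H19.Equivariant
import Fermat.Agent.S19.H19.Torsion
import Fermat.Agent.S28.H865Dvr

/-!
# Cell A3 (S19) — node ORD, part 1 (helper15): basic consequences of an `OrderDatum`

From an `OrderDatum ℓ M act` (only axiom on `act`: additivity):
* `act` is automatically a group action fixing `0` (`act_one`, `act_mul`, `act_zero`):
  `act σ m` is the unique point with `f (act σ m) = σ (f m)` for all generators `f`;
* the `ℤ_(ℓ)`-algebra `ordAlg D` generated by the generators consists of equivariant functions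
  with integral values and separates points.
-/

set_option autoImplicit false
set_option linter.style.haveILetI false

noncomputable section

namespace Fermat.Agent.S19.H15

open Fermat.Agent.S19

variable {ℓ : ℕ} {M : Type} [AddCommGroup M] {act : GalQ → M → M}

theorem act_one (D : OrderDatum ℓ M act) (m : M) : act 1 m = m :=
  D.separates _ _ fun f hf => by
    rw [D.equivariant f hf 1 m]
    rfl

theorem act_mul (D : OrderDatum ℓ M act) (σ τ : GalQ) (m : M) :
    act σ (act τ m) = act (σ * τ) m :=
  D.separates _ _ fun f hf => by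
    rw [D.equivariant f hf σ, D.equivariant f hf τ, D.equivariant f hf (σ * τ)]
    rfl

theorem act_zero (D : OrderDatum ℓ M act) (σ : GalQ) : act σ 0 = 0 := by
  have h := D.act_add σ 0 0
  rw [add_zero] at h
  exact left_eq_add.mp h

/-- The `ℤ_(ℓ)`-algebra generated by the generators of an order datum. -/
def ordAlg (D : OrderDatum ℓ M act) : Subalgebra (Rl ℓ) (M → Qb) :=
  Algebra.adjoin (Rl ℓ) D.gens

theorem gens_le_ordAlg (D : OrderDatum ℓ M act) : D.gens ⊆ (ordAlg D : Set (M → Qb)) :=
  Algebra.subset_adjoin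

/-- equivariant functions form a subalgebra -/
def equivSubalgebra (ℓ : ℕ) {X : Type} (act : GalQ → X → X) : Subalgebra (Rl ℓ) (X → Qb) where
  carrier := {f | H19.IsEquivariant act f}
  mul_mem' := fun {f g} hf hg σ m => by
    show f (act σ m) * g (act σ m) = σ (f m * g m)
    rw [hf σ m, hg σ m, map_mul]
  one_mem' := fun σ m => (map_one σ).symm
  add_mem' := fun {f g} hf hg σ m => by
    show f (act σ m) + g (act σ m) = σ (f m + g m)
    rw [hf σ m, hg σ m, map_add]
  zero_mem' := fun σ m => (map_zero σ).symm
  algebraMap_mem' := fun r σ m => by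
    show algebraMap (Rl ℓ) Qb r = σ (algebraMap (Rl ℓ) Qb r)
    have h : algebraMap (Rl ℓ) Qb r = algebraMap ℚ Qb (r : ℚ) := rfl
    rw [h, σ.commutes]

theorem mem_equivSubalgebra {X : Type} {act : GalQ → X → X} {f : X → Qb} :
    f ∈ equivSubalgebra ℓ act ↔ H19.IsEquivariant act f := Iff.rfl

/-- functions with integral values form a subalgebra -/
def intSubalgebra (ℓ : ℕ) (X : Type) : Subalgebra (Rl ℓ) (X → Qb) where
  carrier := {f | ∀ x, IsIntegral (Rl ℓ) (f x)}
  mul_mem' := fun {f g} hf hg x => (hf x).mul (hg x)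
  one_mem' := fun _ => isIntegral_one
  add_mem' := fun {f g} hf hg x => (hf x).add (hg x)
  zero_mem' := fun _ => isIntegral_zero
  algebraMap_mem' := fun _ _ => isIntegral_algebraMap

theorem mem_intSubalgebra {X : Type} {f : X → Qb} :
    f ∈ intSubalgebra ℓ X ↔ ∀ x, IsIntegral (Rl ℓ) (f x) := Iff.rfl

theorem ordAlg_equivariant (D : OrderDatum ℓ M act) :
    ∀ f ∈ ordAlg D, H19.IsEquivariant act f := by
  have h : ordAlg D ≤ equivSubalgebra ℓ act :=
    Algebra.adjoin_le fun f hf => D.equivariant f hf
  exact fun f hf => h hf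

theorem ordAlg_integral (D : OrderDatum ℓ M act) :
    ∀ f ∈ ordAlg D, ∀ m, IsIntegral (Rl ℓ) (f m) := by
  have h : ordAlg D ≤ intSubalgebra ℓ M :=
    Algebra.adjoin_le fun f hf => D.integral f hf
  exact fun f hf => h hf

theorem ordAlg_separates (D : OrderDatum ℓ M act) :
    ∀ m m' : M, m ≠ m' → ∃ f ∈ ordAlg D, f m ≠ f m' := by
  intro m m' hne
  by_contra hcon
  push Not at hcon
  exact hne (D.separates m m' fun f hf => hcon f (gens_le_ordAlg D hf))

end Fermat.Agent.S19.H15

end
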