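import Fermat.Agent.S19.H15.OrdBasic

/-!
# Cell A3 (S19) — node ORD, part 2 (helper15): descent `Z̄_(ℓ) → ℤ_(ℓ)`

`mem_of_mem_span_of_equivariant`: for a finitely generated `ℤ_(ℓ)`-subalgebra `Λ` of equivariant
functions `X → Q̄` (any `Gal`-set `X`), an EQUIVARIANT function in the `Z̄_(ℓ)`-span of `Λ` lies
in `Λ`.  (Same proof as helper435's lemma for Hopf lattices, for arbitrary `X`.)
-/

set_option autoImplicit false
set_option linter.style.haveILetI false

noncomputable section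

namespace Fermat.Agent.S19.H15

open Fermat.Agent.S19

variable {ℓ : ℕ} [Fact ℓ.Prime]

theorem isIntegrallyClosed_Rl (q : ℚ) (hq : IsIntegral (Rl ℓ) q) : q ∈ Rl ℓ := by
  haveI : IsPrincipalIdealRing ↥(GaloisRep.ratLocalizedAt ℓ) := inferInstance
  exact H19.mem_of_isIntegral_of_pid (Rl ℓ) q hq

/-- **Descent.** -/
theorem mem_of_mem_span_of_equivariant {X : Type} {act : GalQ → X → X}
    (hone : ∀ m, act 1 m = m) (hact : ∀ σ τ m, act σ (act τ m) = act (σ * τ) m)
    (Λ : Subalgebra (Rl ℓ) (X → Qb)) (hequiv : ∀ f ∈ Λ, H19.IsEquivariant act f)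
    (hfg : (Subalgebra.toSubmodule Λ).FG)
    {u : X → Qb} (hu : u ∈ Submodule.span (Zb ℓ) (Λ : Set (X → Qb)))
    (hueq : H19.IsEquivariant act u) : u ∈ Λ := by
  classical
  haveI : IsPrincipalIdealRing ↥(GaloisRep.ratLocalizedAt ℓ) := inferInstance
  obtain ⟨ι, hι, b, hb⟩ := H19.good_of_equivariant (Rl ℓ) hone hact Λ hequiv hfg
  haveI := Fintype.ofFinite ι
  -- coordinates with integral coefficients
  have hcoord : ∀ v ∈ Submodule.span (Zb ℓ) (Λ : Set (X → Qb)),
      ∃ W : ι → Qb, (∀ i, IsIntegral (Rl ℓ) (W i)) ∧ v = ∑ i, W i • ((b i : Λ) : X → Qb) := by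
    intro v hv
    induction hv using Submodule.span_induction with
    | mem f hf =>
      refine ⟨fun i => algebraMap (Rl ℓ) Qb (b.repr ⟨f, hf⟩ i), fun i => isIntegral_algebraMap, ?_⟩
      have h1 := congrArg (fun g : Λ => (g : X → Qb)) (b.sum_repr ⟨f, hf⟩)
      simp only at h1
      refine h1.symm.trans ?_
      rw [AddSubmonoidClass.coe_finsetSum]
      refine Finset.sum_congr rfl fun i _ => ?_
      show ((b.repr ⟨f, hf⟩ i) • ((b i : Λ) : X → Qb)) = _
      rw [algebraMap_smul]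
    | zero => exact ⟨0, fun i => isIntegral_zero, by simp⟩
    | add x y _ _ hx hy =>
      obtain ⟨W, hW, rfl⟩ := hx
      obtain ⟨W', hW', rfl⟩ := hy
      refine ⟨W + W', fun i => (hW i).add (hW' i), ?_⟩
      simp [add_smul, Finset.sum_add_distrib]
    | smul z x _ hx =>
      obtain ⟨W, hW, rfl⟩ := hx
      refine ⟨fun i => (z : Qb) * W i, fun i => z.2.mul (hW i), ?_⟩
      show (z : Qb) • (∑ i, W i • ((b i : Λ) : X → Qb)) = _
      rw [Finset.smul_sum]
      refine Finset.sum_congr rfl fun i _ => ?_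
      rw [smul_smul]
  obtain ⟨W, hW, rfl⟩ := hcoord u hu
  have hpt : ∀ m : X, (∑ i, W i • ((b i : Λ) : X → Qb)) m = ∑ i, W i * ((b i : Λ) : X → Qb) m := by
    intro m
    simp [Finset.sum_apply]
  have hfix : ∀ (σ : GalQ) (i : ι), σ (W i) = W i := by
    intro σ
    have h0 : ∑ i, (σ (W i) - W i) • ((b i : Λ) : X → Qb) = 0 := by
      funext m
      simp only [Finset.sum_apply, Pi.smul_apply, smul_eq_mul, Pi.zero_apply, sub_mul,
        Finset.sum_sub_distrib]
      have h1 := hueq σ⁻¹ m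
      rw [hpt, hpt] at h1
      have h2 := congrArg σ h1
      rw [map_sum] at h2
      have h3 : σ (σ⁻¹ (∑ i, W i * ((b i : Λ) : X → Qb) m)) = ∑ i, W i * ((b i : Λ) : X → Qb) m :=
        AlgEquiv.apply_symm_apply σ _
      rw [h3] at h2
      rw [← h2, sub_eq_zero]
      refine Finset.sum_congr rfl fun i _ => ?_
      rw [map_mul, hequiv _ (b i).2 σ⁻¹ m]
      congr 1
      exact (AlgEquiv.apply_symm_apply σ (((b i : Λ) : X → Qb) m)).symm
    intro i
    have := (Fintype.linearIndependent_iff.mp hb) _ h0 i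
    exact sub_eq_zero.mp this
  have hr : ∀ i, ∃ r : Rl ℓ, algebraMap (Rl ℓ) Qb r = W i := fun i =>
    H19.mem_range_of_fixed_of_isIntegral (Rl ℓ) isIntegrallyClosed_Rl (W i)
      (fun σ => hfix σ i) (hW i)
  choose r hr using hr
  have : ∑ i, W i • ((b i : Λ) : X → Qb) = ∑ i, r i • ((b i : Λ) : X → Qb) := by
    refine Finset.sum_congr rfl fun i _ => ?_
    rw [← hr i, algebraMap_smul]
  rw [this]
  exact Subalgebra.sum_mem _ fun i _ => Subalgebra.smul_mem _ (b i).2 _

end Fermat.Agent.S19.H15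

end
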